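import Fermat.Agent.S59.H743.JointEigen
import Fermat.Agent.Lib.Newform.H863.Minimal
import Fermat.Agent.Lib.Newform.H863.OldForms
import Fermat.Agent.Lib.Newform.H863.Raise
import Fermat.Agent.Lib.Newform.H23.MultOne
import Fermat.Agent.Lib.Newform.H743.SpecMainD

/-!
# S59 / NM-OLD (helper743) — Atkin–Lehner: `S₂(Γ₀(L))` is spanned by the `B_d h`

`oldSpan_eq_top743`: for every level `L ≠ 0`, the space `S₂(Γ₀(L))` is spanned by the forms
`B_d h = raiseLin _ h`, `h` a (Prelude-)newform of level `M`, `d * M ∣ L`.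

Proof: joint eigenvectors of the `T_ℓ` (`ℓ ∤ L`) span (`JointEigen.lean`, Petersson); a joint
eigenvector `f` has an associated newform `h` of level `M ∣ L` (`H863`), `f - a₁(f) h` has
vanishing coefficients prime to `L`, hence is `∑ B_p g_p` by the main lemma, and the `g_p` are
in the span at level `L / p` by induction.
-/

set_option autoImplicit false

open CongruenceSubgroup UpperHalfPlane
open scoped MatrixGroups ModularForm

namespace Fermat.Agent.S59.H743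

open Fermat.Agent.Lib.Newform Fermat.Agent.Lib.Newform.H863 ModularFormClass

/-- `T_ℓ` commutes with `B_d` (any target level). -/
theorem heckeTLin_raiseLin743 {M d C ℓ : ℕ} [NeZero d] (h : d * M ∣ C) (hℓ : ℓ.Prime)
    (hℓC : ¬ ℓ ∣ C) (hℓM : ¬ ℓ ∣ M) (g : CuspForm (Gamma0 M) 2) :
    CuspForm.heckeTLin 2 hℓ hℓC (raiseLin h g) = raiseLin h (CuspForm.heckeTLin 2 hℓ hℓM g) := by
  show CuspForm.heckeTLin 2 hℓ hℓC (levelIncl (raise_dvd h) (degen d g)) =
    levelIncl (raise_dvd h) (degen d (CuspForm.heckeTLin 2 hℓ hℓM g))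
  rw [heckeTLin_levelIncl, heckeTLin_degen]

/-- `B_d` of a normalized eigenform is an eigenvector of the good Hecke operators. -/
theorem heckeTLin_raiseLin_eigen743 {M d C ℓ : ℕ} [NeZero d] (h : d * M ∣ C) (hℓ : ℓ.Prime)
    (hℓC : ¬ ℓ ∣ C) {g : CuspForm (Gamma0 M) 2} (hg : g.IsNormalizedEigenform) :
    CuspForm.heckeTLin 2 hℓ hℓC (raiseLin h g) = qCoeff ⇑g ℓ • raiseLin h g := by
  have hℓM : ¬ ℓ ∣ M := fun hd => hℓC ((Dvd.intro_left d rfl).trans h |> fun h' => hd.trans h')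
  rw [heckeTLin_raiseLin743 h hℓ hℓC hℓM, H683.heckeTLin_eq_of_eigenform hg hℓ hℓM, map_smul]

/-- `B_p ∘ B_d = B_{p d}`. -/
theorem raiseLin_raiseLin743 {M d K p L : ℕ} [NeZero d] [NeZero p] (hd : d * M ∣ K)
    (hp : p * K ∣ L) (hpd : p * d * M ∣ L) (g : CuspForm (Gamma0 M) 2) :
    haveI : NeZero (p * d) := ⟨Nat.mul_ne_zero (NeZero.ne p) (NeZero.ne d)⟩
    raiseLin hp (raiseLin hd g) = raiseLin hpd g := by
  haveI : NeZero (p * d) := ⟨Nat.mul_ne_zero (NeZero.ne p) (NeZero.ne d)⟩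
  apply cuspForm_ext_qCoeff
  intro n
  rw [qCoeff_raiseLin hp, qCoeff_raiseLin hpd]
  have hp0 : 0 < p := Nat.pos_of_ne_zero (NeZero.ne p)
  by_cases hpn : p ∣ n
  · obtain ⟨m, rfl⟩ := hpn
    rw [if_pos (Dvd.intro m rfl), qCoeff_raiseLin hd, Nat.mul_div_cancel_left m hp0]
    by_cases hdm : d ∣ m
    · obtain ⟨r, rfl⟩ := hdm
      have h1 : p * d ∣ p * (d * r) := ⟨r, by ring⟩
      rw [if_pos (Dvd.intro r rfl), if_pos h1,
        Nat.mul_div_cancel_left r (Nat.pos_of_ne_zero (NeZero.ne d)),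
        show p * (d * r) = p * d * r by ring,
        Nat.mul_div_cancel_left r (Nat.pos_of_ne_zero (NeZero.ne (p * d)))]
    · have h1 : ¬ p * d ∣ p * m := fun h => hdm ((Nat.mul_dvd_mul_iff_left hp0).mp h)
      rw [if_neg hdm, if_neg h1]
  · have h1 : ¬ p * d ∣ n := fun h => hpn ((Dvd.intro d rfl).trans h)
    rw [if_neg hpn, if_neg h1]

/-- The generators: `B_d h`, `h` a newform of level `M`, `d * M ∣ L`. -/
def oldGen743 (L : ℕ) : Set (CuspForm (Gamma0 L) 2) :=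
  {F | ∃ (M d : ℕ) (_ : NeZero d) (hd : d * M ∣ L) (h : CuspForm (Gamma0 M) 2),
    h.IsNewform ∧ F = raiseLin hd h}

theorem raiseLin_mem_span743 {K p L : ℕ} [NeZero p] (hp : p * K ∣ L)
    (g : CuspForm (Gamma0 K) 2) (hg : g ∈ Submodule.span ℂ (oldGen743 K)) :
    raiseLin hp g ∈ Submodule.span ℂ (oldGen743 L) := by
  have hle : Submodule.span ℂ (oldGen743 K) ≤
      (Submodule.span ℂ (oldGen743 L)).comap (raiseLin hp) := by
    rw [Submodule.span_le]
    rintro F ⟨M, d, hd0, hd, h, hh, rfl⟩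
    have hpd : p * d * M ∣ L := by
      rw [Nat.mul_assoc]
      exact (Nat.mul_dvd_mul_left p hd).trans hp
    show raiseLin hp (raiseLin hd h) ∈ Submodule.span ℂ (oldGen743 L)
    rw [raiseLin_raiseLin743 hd hp hpd h]
    exact Submodule.subset_span
      ⟨M, p * d, ⟨Nat.mul_ne_zero (NeZero.ne p) (NeZero.ne d)⟩, hpd, h, hh, rfl⟩
  exact hle hg

/-- A joint eigenvector of the good Hecke operators lies in the span of the `B_d h`, given the
statement at the levels `L / p`. -/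
theorem eigen_mem_span743 (L : ℕ) [NeZero L]
    (ih : ∀ p ∈ L.primeFactors, Submodule.span ℂ (oldGen743 (L / p)) = ⊤)
    (χ : ℕ → ℂ) (f : CuspForm (Gamma0 L) 2)
    (hf : ∀ (ℓ : ℕ) (hℓ : ℓ.Prime) (hℓL : ¬ ℓ ∣ L), CuspForm.heckeTLin 2 hℓ hℓL f = χ ℓ • f) :
    f ∈ Submodule.span ℂ (oldGen743 L) := by
  classical
  by_cases hf0 : f = 0
  · rw [hf0]; exact Submodule.zero_mem _
  obtain ⟨g, hg, hgχ⟩ := exists_normalizedEigenform_of_eigenvector (∅ : Set ℕ) χ f hf0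
    (fun ℓ hℓ hℓL _ => hf ℓ hℓ hℓL)
  obtain ⟨M, hML, h, hh, hhg⟩ := exists_isNewform_of_isNormalizedEigenform g hg
  have h1M : 1 * M ∣ L := by rwa [Nat.one_mul]
  haveI : NeZero (1 : ℕ) := ⟨one_ne_zero⟩
  set H : CuspForm (Gamma0 L) 2 := raiseLin h1M h with hH
  have hHmem : H ∈ Submodule.span ℂ (oldGen743 L) :=
    Submodule.subset_span ⟨M, 1, ⟨one_ne_zero⟩, h1M, h, hh, rfl⟩
  have hH1 : qCoeff ⇑H 1 = 1 := by
    rw [hH, qCoeff_raiseLin, if_pos (one_dvd 1), Nat.div_one, hh.1.qCoeff_one]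
  have hHe : ∀ (ℓ : ℕ) (hℓ : ℓ.Prime) (hℓL : ¬ ℓ ∣ L),
      CuspForm.heckeTLin 2 hℓ hℓL H = χ ℓ • H := by
    intro ℓ hℓ hℓL
    rw [hH, heckeTLin_raiseLin_eigen743 h1M hℓ hℓL hh.1, hhg ℓ hℓ hℓL,
      hgχ ℓ hℓ hℓL (Set.notMem_empty _)]
  set F : CuspForm (Gamma0 L) 2 := f - qCoeff ⇑f 1 • H with hF
  have hFe : ∀ (ℓ : ℕ) (hℓ : ℓ.Prime) (hℓL : ¬ ℓ ∣ L),
      CuspForm.heckeTLin 2 hℓ hℓL F = χ ℓ • F := by
    intro ℓ hℓ hℓL
    rw [hF, map_sub, map_smul, hf ℓ hℓ hℓL, hHe ℓ hℓ hℓL, smul_sub, smul_comm]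
  have hF1 : qCoeff ⇑F 1 = 0 := by
    rw [hF, H683.qCoeff_sub_cusp, H683.qCoeff_smul_cusp, hH1, mul_one, sub_self]
  have hvan : ∀ n : ℕ, n.Coprime L → qCoeff ⇑F n = 0 := by
    apply H23.qCoeff_eq_zero_of_coprime F χ _ hF1
    intro ℓ hℓ hℓL
    have := congrArg (fun G : CuspForm (Gamma0 L) 2 => (⇑G : ℍ → ℂ)) (hFe ℓ hℓ hℓL)
    simpa using this
  obtain ⟨G, hG⟩ := H743.mainLemma' L F hvan
  -- the raised forms
  have hdvd : ∀ p ∈ L.primeFactors, p * (L / p) ∣ L := by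
    intro p hp
    rw [Nat.mul_div_cancel' (Nat.mem_primeFactors.mp hp).2.1]
  let R : L.primeFactors → CuspForm (Gamma0 L) 2 := fun p =>
    haveI : NeZero (p : ℕ) := ⟨(Nat.mem_primeFactors.mp p.2).1.ne_zero⟩
    raiseLin (hdvd p p.2) (G p)
  have hRmem : ∀ p : L.primeFactors, R p ∈ Submodule.span ℂ (oldGen743 L) := by
    intro p
    haveI : NeZero (p : ℕ) := ⟨(Nat.mem_primeFactors.mp p.2).1.ne_zero⟩
    refine raiseLin_mem_span743 (hdvd p p.2) (G p) ?_
    rw [ih p p.2]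
    exact Submodule.mem_top
  have hRq : ∀ (p : L.primeFactors) (n : ℕ),
      qCoeff ⇑(R p) n = if (p : ℕ) ∣ n then qCoeff ⇑(G p) (n / p) else 0 := by
    intro p n
    haveI : NeZero (p : ℕ) := ⟨(Nat.mem_primeFactors.mp p.2).1.ne_zero⟩
    exact qCoeff_raiseLin (hdvd p p.2) (G p) n
  have hFsum : F = ∑ p : L.primeFactors, R p := by
    apply cuspForm_ext_qCoeff
    intro n
    have h2 : qCoeff ⇑(∑ p : L.primeFactors, R p) n = ∑ p : L.primeFactors, qCoeff ⇑(R p) n := by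
      have := map_sum (H683.coeffLin L 2 n) R Finset.univ
      simp only [H683.coeffLin_apply] at this
      exact this
    rw [h2, hG n, ← Finset.sum_coe_sort L.primeFactors
      (fun p => if p ∣ n then qCoeff ⇑(G p) (n / p) else 0)]
    exact Finset.sum_congr rfl fun p _ => (hRq p n).symm
  have hFmem : F ∈ Submodule.span ℂ (oldGen743 L) := by
    rw [hFsum]
    exact Submodule.sum_mem _ fun p _ => hRmem p
  have : f = F + qCoeff ⇑f 1 • H := by rw [hF]; abel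
  rw [this]
  exact Submodule.add_mem _ hFmem (Submodule.smul_mem _ _ hHmem)

/-- **Atkin–Lehner spanning.**  `S₂(Γ₀(L))` is spanned by the `B_d h`, `h` a newform of level
`M`, `d * M ∣ L`. -/
theorem oldSpan_eq_top743 : ∀ (L : ℕ), L ≠ 0 → Submodule.span ℂ (oldGen743 L) = ⊤ := by
  intro L
  induction L using Nat.strong_induction_on with
  | _ L ih =>
    intro hL
    haveI : NeZero L := ⟨hL⟩
    refine jointEigen_induction743 L _ (fun χ f hf => eigen_mem_span743 L ?_ χ f hf)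
    intro p hp
    have hp' := Nat.mem_primeFactors.mp hp
    have hlt : L / p < L := Nat.div_lt_self (Nat.pos_of_ne_zero hL) hp'.1.one_lt
    have hne : L / p ≠ 0 := by
      intro h0
      have := Nat.div_mul_cancel hp'.2.1
      rw [h0, Nat.zero_mul] at this
      exact hL this.symm
    exact ih (L / p) hlt hne

end Fermat.Agent.S59.H743
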