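import Fermat.Agent.S59.H743.ALSpan
import Fermat.Agent.Lib.Newform.H958.X.Final

/-!
# S59 / NM-OLD (helper743) — the forms-level core of `NM.OldStatement`

`formOld743`: let `q` be a prime, `S ⊇ primes(N)` a finite set of primes and `a` a system of
eigenvalues which occurs in `S₂(Γ₀(N))` away from `S`.  Then every `f ∈ S₂(Γ₀(N q²))` which is
an eigenvector of the `T_ℓ`, `ℓ ∉ S ∪ {q}`, with eigenvalues `a ℓ`, is

    f = g₁ + B_q g₂ + B_{q²} g₃,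

with `g_i ∈ S₂(Γ₀(N))` eigenvectors of the `T_ℓ`, `ℓ ∤ N`, `ℓ ∉ S` (including `T_q` if `q ∉ S`),
with eigenvalues `a ℓ`.

Proof: Atkin–Lehner spanning (`ALSpan.lean`), a product of operators `T_ℓ - b` kills the
generators `B_d h` whose newform `h` has another eigensystem, and cross-level strong
multiplicity one (`Lib/Newform/H958/X`) identifies the remaining newforms with the newform `h₀`
of the given system, whose level divides `N`.
-/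

set_option autoImplicit false

open CongruenceSubgroup UpperHalfPlane
open scoped MatrixGroups ModularForm

namespace Fermat.Agent.S59.H743

open Fermat.Agent.Lib.Newform Fermat.Agent.Lib.Newform.H863 ModularFormClass

/-- **Product trick.**  A linear combination of joint eigenvectors whose eigensystems all differ
from `a` somewhere outside `S`, which lies in the `a`-eigenspace, vanishes. -/
theorem sum_eq_zero_of_bad743 (L : ℕ) [NeZero L] (S : Set ℕ) (a : ℕ → ℂ) :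
    ∀ (t : Finset (CuspForm (Gamma0 L) 2)) (c : CuspForm (Gamma0 L) 2 → ℂ),
      (∀ F ∈ t, ∃ χ : ℕ → ℂ,
        (∀ (ℓ : ℕ) (hℓ : ℓ.Prime) (hℓL : ¬ ℓ ∣ L), CuspForm.heckeTLin 2 hℓ hℓL F = χ ℓ • F) ∧
        ∃ ℓ : ℕ, ℓ.Prime ∧ ¬ ℓ ∣ L ∧ ℓ ∉ S ∧ χ ℓ ≠ a ℓ) →
      (∑ F ∈ t, c F • F) ∈ goodEigenspace L S a → ∑ F ∈ t, c F • F = 0 := by
  classical
  intro t
  induction t using Finset.induction_on with
  | empty => intro c _ _; simp
  | insert F₀ t hF₀ ih =>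
    intro c hbad hmem
    obtain ⟨χ₀, hχ₀, ℓ₀, hℓ₀, hℓ₀L, hℓ₀S, hne⟩ := hbad F₀ (Finset.mem_insert_self _ _)
    have hμ : ∀ F ∈ t, ∃ b : ℂ, CuspForm.heckeTLin 2 hℓ₀ hℓ₀L F = b • F := by
      intro F hF
      obtain ⟨χ, hχ, -⟩ := hbad F (Finset.mem_insert_of_mem hF)
      exact ⟨χ ℓ₀, hχ ℓ₀ hℓ₀ hℓ₀L⟩
    choose! μ hμ' using hμ
    set R : CuspForm (Gamma0 L) 2 := ∑ F ∈ insert F₀ t, c F • F with hR
    have hRe : CuspForm.heckeTLin 2 hℓ₀ hℓ₀L R = a ℓ₀ • R := hmem ℓ₀ hℓ₀ hℓ₀L hℓ₀S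
    have hR' : R = c F₀ • F₀ + ∑ F ∈ t, c F • F := by
      rw [hR, Finset.sum_insert hF₀]
    -- apply `T - χ₀ ℓ₀`
    have h1 : CuspForm.heckeTLin 2 hℓ₀ hℓ₀L R - χ₀ ℓ₀ • R
        = ∑ F ∈ t, (c F * (μ F - χ₀ ℓ₀)) • F := by
      rw [hR', map_add, map_smul, hχ₀ ℓ₀ hℓ₀ hℓ₀L, map_sum, smul_add, Finset.smul_sum]
      have h2 : ∀ F ∈ t, CuspForm.heckeTLin 2 hℓ₀ hℓ₀L (c F • F) - χ₀ ℓ₀ • (c F • F)
          = (c F * (μ F - χ₀ ℓ₀)) • F := by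
        intro F hF
        rw [map_smul, hμ' F hF, smul_smul, smul_smul, ← sub_smul]
        congr 1
        ring
      rw [← Finset.sum_congr rfl h2, Finset.sum_sub_distrib]
      rw [smul_comm (c F₀) (χ₀ ℓ₀) F₀]
      abel
    have h3 : (∑ F ∈ t, (c F * (μ F - χ₀ ℓ₀)) • F) = (a ℓ₀ - χ₀ ℓ₀) • R := by
      rw [← h1, hRe, sub_smul]
    have h4 : (∑ F ∈ t, (c F * (μ F - χ₀ ℓ₀)) • F) ∈ goodEigenspace L S a := by
      rw [h3]
      exact Submodule.smul_mem _ _ hmem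
    have h5 := ih (fun F => c F * (μ F - χ₀ ℓ₀))
      (fun F hF => hbad F (Finset.mem_insert_of_mem hF)) h4
    rw [h3] at h5
    rcases smul_eq_zero.mp h5 with h6 | h6
    · exact absurd (sub_eq_zero.mp h6).symm hne
    · exact h6

/-- The generators `B_d h` whose newform `h` has the eigenvalues `a` outside `S`. -/
def goodGen743 (L : ℕ) (S : Set ℕ) (a : ℕ → ℂ) : Set (CuspForm (Gamma0 L) 2) :=
  {F | ∃ (M d : ℕ) (_ : NeZero d) (hd : d * M ∣ L) (h : CuspForm (Gamma0 M) 2),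
    h.IsNewform ∧ (∀ ℓ : ℕ, ℓ.Prime → ¬ ℓ ∣ L → ℓ ∉ S → qCoeff ⇑h ℓ = a ℓ) ∧ F = raiseLin hd h}

theorem goodGen_subset_goodEigenspace743 (L : ℕ) [NeZero L] (S : Set ℕ) (a : ℕ → ℂ) :
    goodGen743 L S a ⊆ goodEigenspace L S a := by
  rintro F ⟨M, d, hd0, hd, h, hh, ha, rfl⟩ ℓ hℓ hℓL hℓS
  rw [heckeTLin_raiseLin_eigen743 hd hℓ hℓL hh.1, ha ℓ hℓ hℓL hℓS]

/-- **Selection.**  The `a`-eigenspace (away from `S`) of level `L` is spanned by the `B_d h`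
with `h` a newform having the eigenvalues `a` outside `S`. -/
theorem mem_span_goodGen743 (L : ℕ) [NeZero L] (S : Set ℕ) (a : ℕ → ℂ)
    (f : CuspForm (Gamma0 L) 2) (hf : f ∈ goodEigenspace L S a) :
    f ∈ Submodule.span ℂ (goodGen743 L S a) := by
  classical
  have htop : f ∈ Submodule.span ℂ (oldGen743 L) := by
    rw [oldSpan_eq_top743 L (NeZero.ne L)]
    exact Submodule.mem_top
  obtain ⟨c, t, ht, -, hsum⟩ := Submodule.mem_span_iff_exists_finset_subset.mp htop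
  set tg := t.filter (fun F => F ∈ goodGen743 L S a) with htg
  set tb := t.filter (fun F => ¬ F ∈ goodGen743 L S a) with htb
  have hsplit : (∑ F ∈ tg, c F • F) + ∑ F ∈ tb, c F • F = f := by
    rw [htg, htb, Finset.sum_filter_add_sum_filter_not, hsum]
  have hg : (∑ F ∈ tg, c F • F) ∈ Submodule.span ℂ (goodGen743 L S a) := by
    refine Submodule.sum_mem _ fun F hF => Submodule.smul_mem _ _ (Submodule.subset_span ?_)
    exact (Finset.mem_filter.mp hF).2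
  have hgW : (∑ F ∈ tg, c F • F) ∈ goodEigenspace L S a :=
    Submodule.span_le.mpr (goodGen_subset_goodEigenspace743 L S a) hg
  have hbW : (∑ F ∈ tb, c F • F) ∈ goodEigenspace L S a := by
    have : (∑ F ∈ tb, c F • F) = f - ∑ F ∈ tg, c F • F := by
      rw [← hsplit]; abel
    rw [this]
    exact Submodule.sub_mem _ hf hgW
  have hb0 : (∑ F ∈ tb, c F • F) = 0 := by
    refine sum_eq_zero_of_bad743 L S a tb c ?_ hbW
    intro F hF
    obtain ⟨hFt, hFb⟩ := Finset.mem_filter.mp hF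
    obtain ⟨M, d, hd0, hd, h, hh, rfl⟩ := ht hFt
    refine ⟨fun ℓ => qCoeff ⇑h ℓ,
      fun ℓ hℓ hℓL => heckeTLin_raiseLin_eigen743 hd hℓ hℓL hh.1, ?_⟩
    by_contra hcon
    push Not at hcon
    exact hFb ⟨M, d, hd0, hd, h, hh, fun ℓ hℓ hℓL hℓS => hcon ℓ hℓ hℓL hℓS, rfl⟩
  rw [← hsplit, hb0, add_zero]
  exact hg

/-- A generator `B_{p d₁} h₀` with `d₁ * M₀ ∣ N` lies in `B_p` of the `a`-eigenspace of level
`N`. -/
theorem raise_newform_mem743 {N M₀ C p d₁ : ℕ} [NeZero N] [NeZero p] [NeZero d₁] (S : Set ℕ)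
    (a : ℕ → ℂ) (hpN : p * N ∣ C) (h₁ : d₁ * M₀ ∣ N) (hd : p * d₁ * M₀ ∣ C)
    (h₀ : CuspForm (Gamma0 M₀) 2) (hh₀ : h₀.IsNewform)
    (ha : ∀ ℓ : ℕ, ℓ.Prime → ¬ ℓ ∣ N → ℓ ∉ S → qCoeff ⇑h₀ ℓ = a ℓ) :
    haveI : NeZero (p * d₁) := ⟨Nat.mul_ne_zero (NeZero.ne p) (NeZero.ne d₁)⟩
    raiseLin hd h₀ ∈ (goodEigenspace N S a).map (raiseLin hpN) := by
  haveI : NeZero (p * d₁) := ⟨Nat.mul_ne_zero (NeZero.ne p) (NeZero.ne d₁)⟩
  refine ⟨raiseLin h₁ h₀, ?_, raiseLin_raiseLin743 h₁ hpN hd h₀⟩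
  intro ℓ hℓ hℓN hℓS
  rw [heckeTLin_raiseLin_eigen743 h₁ hℓ hℓN hh₀.1, ha ℓ hℓ hℓN hℓS]

/-- `raiseLin` does not depend on the proofs and instances. -/
theorem raiseLin_congr743 {M d d' C : ℕ} [NeZero d] [NeZero d'] (hdd : d = d')
    (h : d * M ∣ C) (h' : d' * M ∣ C) (g : CuspForm (Gamma0 M) 2) :
    raiseLin h g = raiseLin h' g := by
  subst hdd
  rfl

/-- **Forms-level OLD, submodule form.** -/
theorem formOld_mem743 (N q : ℕ) [NeZero N] [NeZero q] [NeZero (q * q)] [NeZero (N * q * q)]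
    (hq : q.Prime) (S : Finset ℕ)
    (hNS : ∀ r : ℕ, r.Prime → r ∣ N → r ∈ S) (a : ℕ → ℂ)
    (x : CuspForm (Gamma0 N) 2) (hx : x ≠ 0) (hxe : x ∈ goodEigenspace N (↑S : Set ℕ) a)
    (h1 : 1 * N ∣ N * q * q) (hq1 : q * N ∣ N * q * q) (hq2 : q * q * N ∣ N * q * q)
    (f : CuspForm (Gamma0 (N * q * q)) 2)
    (hf : f ∈ goodEigenspace (N * q * q) (↑(insert q S) : Set ℕ) a) :
    f ∈ (goodEigenspace N (↑S : Set ℕ) a).map (raiseLin h1) ⊔
      (goodEigenspace N (↑S : Set ℕ) a).map (raiseLin hq1) ⊔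
      (goodEigenspace N (↑S : Set ℕ) a).map (raiseLin hq2) := by
  classical
  -- the newform of the system
  obtain ⟨g₀, hg₀, hg₀a⟩ := exists_normalizedEigenform_of_eigenvector (↑S : Set ℕ) a x hx hxe
  obtain ⟨M₀, hM₀N, h₀, hh₀, hh₀g⟩ := exists_isNewform_of_isNormalizedEigenform g₀ hg₀
  have hM₀0 : M₀ ≠ 0 := fun h0 => NeZero.ne N (Nat.eq_zero_of_zero_dvd (h0 ▸ hM₀N))
  haveI : NeZero M₀ := ⟨hM₀0⟩
  have hh₀a : ∀ ℓ : ℕ, ℓ.Prime → ¬ ℓ ∣ N → ℓ ∉ (↑S : Set ℕ) → qCoeff ⇑h₀ ℓ = a ℓ := by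
    intro ℓ hℓ hℓN hℓS
    rw [hh₀g ℓ hℓ hℓN, hg₀a ℓ hℓ hℓN hℓS]
  have hnotdvd : ∀ ℓ : ℕ, ℓ.Prime → ℓ ∉ insert q S → ¬ ℓ ∣ N ∧ ¬ ℓ ∣ N * q * q ∧ ℓ ∉ S := by
    intro ℓ hℓ hℓS
    rw [Finset.mem_insert, not_or] at hℓS
    have hℓN : ¬ ℓ ∣ N := fun hd => hℓS.2 (hNS ℓ hℓ hd)
    refine ⟨hℓN, ?_, hℓS.2⟩
    intro hd
    rcases (Nat.Prime.dvd_mul hℓ).mp hd with h | h
    · rcases (Nat.Prime.dvd_mul hℓ).mp h with h | h
      · exact hℓN h
      · exact hℓS.1 ((Nat.prime_dvd_prime_iff_eq hℓ hq).mp h)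
    · exact hℓS.1 ((Nat.prime_dvd_prime_iff_eq hℓ hq).mp h)
  set V := (goodEigenspace N (↑S : Set ℕ) a).map (raiseLin h1) ⊔
      (goodEigenspace N (↑S : Set ℕ) a).map (raiseLin hq1) ⊔
      (goodEigenspace N (↑S : Set ℕ) a).map (raiseLin hq2) with hV
  have hspan := mem_span_goodGen743 (N * q * q) (↑(insert q S) : Set ℕ) a f hf
  refine Submodule.span_le.mpr ?_ hspan
  rintro F ⟨M, d, hd0, hd, h, hh, ha, rfl⟩
  have hM0 : M ≠ 0 := by
    rintro rfl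
    rw [Nat.mul_zero, zero_dvd_iff] at hd
    exact NeZero.ne (N * q * q) hd
  haveI : NeZero M := ⟨hM0⟩
  -- strong multiplicity one: `h = h₀`
  obtain ⟨hMM, hcoef⟩ := H958.X.strongMultOne M M₀ h h₀ hh hh₀ (insert q S) (by
    intro ℓ hℓ hℓS
    obtain ⟨hℓN, hℓL, hℓS'⟩ := hnotdvd ℓ hℓ hℓS
    rw [ha ℓ hℓ hℓL (by exact_mod_cast hℓS), hh₀a ℓ hℓ hℓN (by exact_mod_cast hℓS')])
  subst hMM
  have hhh : h = h₀ := cuspForm_ext_qCoeff hcoef
  subst hhh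
  -- decompose `d`
  obtain ⟨N₁, hN₁⟩ := hM₀N
  have hdN : d ∣ N₁ * (q * q) := by
    have h2 : d * M ∣ N₁ * (q * q) * M := by
      have : N₁ * (q * q) * M = N * q * q := by rw [hN₁]; ring
      rw [this]; exact hd
    exact Nat.dvd_of_mul_dvd_mul_right (Nat.pos_of_ne_zero hM0) h2
  obtain ⟨d₁, d₂, hd₁, hd₂, hdd⟩ := Nat.dvd_mul.mp hdN
  have hd₁0 : d₁ ≠ 0 := by
    rintro rfl
    rw [Nat.zero_mul] at hdd
    exact NeZero.ne d hdd.symm
  haveI : NeZero d₁ := ⟨hd₁0⟩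
  have hd₁M : d₁ * M ∣ N := by
    rw [hN₁, Nat.mul_comm M N₁]
    exact Nat.mul_dvd_mul_right hd₁ M
  have hd₂' : d₂ ∣ q ^ 2 := by rwa [pow_two]
  obtain ⟨j, hj, hd₂j⟩ := (Nat.dvd_prime_pow hq).mp hd₂'
  have hcases : d₂ = 1 ∨ d₂ = q ∨ d₂ = q * q := by
    interval_cases j
    · left; simpa using hd₂j
    · right; left; simpa using hd₂j
    · right; right; rw [hd₂j, pow_two]
  rcases hcases with hc | hc | hc
  · have hde : d = 1 * d₁ := by rw [← hdd, hc, Nat.mul_comm]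
    have hd' : 1 * d₁ * M ∣ N * q * q := by rw [← hde]; exact hd
    haveI : NeZero (1 * d₁) := ⟨Nat.mul_ne_zero one_ne_zero hd₁0⟩
    rw [raiseLin_congr743 hde hd hd' h]
    exact Submodule.mem_sup_left (Submodule.mem_sup_left
      (raise_newform_mem743 (↑S : Set ℕ) a h1 hd₁M hd' h hh hh₀a))
  · have hde : d = q * d₁ := by rw [← hdd, hc, Nat.mul_comm]
    have hd' : q * d₁ * M ∣ N * q * q := by rw [← hde]; exact hd
    haveI : NeZero (q * d₁) := ⟨Nat.mul_ne_zero (NeZero.ne q) hd₁0⟩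
    rw [raiseLin_congr743 hde hd hd' h]
    exact Submodule.mem_sup_left (Submodule.mem_sup_right
      (raise_newform_mem743 (↑S : Set ℕ) a hq1 hd₁M hd' h hh hh₀a))
  · have hde : d = q * q * d₁ := by rw [← hdd, hc, Nat.mul_comm]
    have hd' : q * q * d₁ * M ∣ N * q * q := by rw [← hde]; exact hd
    haveI : NeZero (q * q * d₁) := ⟨Nat.mul_ne_zero (NeZero.ne (q * q)) hd₁0⟩
    rw [raiseLin_congr743 hde hd hd' h]
    exact Submodule.mem_sup_right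
      (raise_newform_mem743 (↑S : Set ℕ) a hq2 hd₁M hd' h hh hh₀a)

theorem heckeDiag_one_smul743 (τ : UpperHalfPlane) :
    ModularForm.heckeDiagMatrix 1 • τ = τ := by
  apply UpperHalfPlane.ext
  rw [ModularForm.coe_heckeDiagMatrix_smul one_ne_zero]
  push_cast
  ring

theorem heckeDiag_mul_smul743 {m n : ℕ} (hm : m ≠ 0) (hn : n ≠ 0) (τ : UpperHalfPlane) :
    ModularForm.heckeDiagMatrix (m * n) • τ =
      ModularForm.heckeDiagMatrix m • (ModularForm.heckeDiagMatrix n • τ) := by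
  apply UpperHalfPlane.ext
  rw [ModularForm.coe_heckeDiagMatrix_smul (Nat.mul_ne_zero hm hn),
    ModularForm.coe_heckeDiagMatrix_smul hm, ModularForm.coe_heckeDiagMatrix_smul hn]
  push_cast
  ring

/-- **Forms-level OLD** (Atkin–Lehner–Li), pointwise form: an eigenform `F` of level `N q²` away
from `S ∪ {q}` whose system of eigenvalues occurs in level `N` away from `S ⊇ primes(N)` is
`F(τ) = h₁(τ) + h₂(qτ) + h₃(q²τ)` with eigenforms `h_i` of level `N` away from `S`. -/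
theorem formOld743 (N q : ℕ) [NeZero N] [NeZero q] [NeZero (N * q * q)]
    (hq : q.Prime) (S : Finset ℕ)
    (hNS : ∀ r : ℕ, r.Prime → r ∣ N → r ∈ S) (a : ℕ → ℂ)
    (hG : ∃ G : CuspForm (Gamma0 N) 2, G ≠ 0 ∧
      ∀ (l : ℕ) (hl : l.Prime) (hlN : ¬ l ∣ N), l ∉ S →
        CuspForm.heckeTLin 2 hl hlN G = a l • G)
    (F : CuspForm (Gamma0 (N * q * q)) 2)
    (hF : ∀ (l : ℕ) (hl : l.Prime) (hlN : ¬ l ∣ N * q * q), l ∉ insert q S →
      CuspForm.heckeTLin 2 hl hlN F = a l • F) :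
    ∃ h₁ h₂ h₃ : CuspForm (Gamma0 N) 2,
      (∀ (l : ℕ) (hl : l.Prime) (hlN : ¬ l ∣ N), l ∉ S →
        CuspForm.heckeTLin 2 hl hlN h₁ = a l • h₁) ∧
      (∀ (l : ℕ) (hl : l.Prime) (hlN : ¬ l ∣ N), l ∉ S →
        CuspForm.heckeTLin 2 hl hlN h₂ = a l • h₂) ∧
      (∀ (l : ℕ) (hl : l.Prime) (hlN : ¬ l ∣ N), l ∉ S →
        CuspForm.heckeTLin 2 hl hlN h₃ = a l • h₃) ∧
      ∀ τ : UpperHalfPlane, F τ = h₁ τ + h₂ (ModularForm.heckeDiagMatrix q • τ) +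
        h₃ (ModularForm.heckeDiagMatrix q • (ModularForm.heckeDiagMatrix q • τ)) := by
  obtain ⟨G, hG0, hGe⟩ := hG
  have hq0 : q ≠ 0 := NeZero.ne q
  haveI : NeZero (q * q) := ⟨Nat.mul_ne_zero hq0 hq0⟩
  have h1 : 1 * N ∣ N * q * q := ⟨q * q, by ring⟩
  have hq1 : q * N ∣ N * q * q := ⟨q, by ring⟩
  have hq2 : q * q * N ∣ N * q * q := ⟨1, by ring⟩
  have hmem := formOld_mem743 N q hq S hNS a G hG0
    (fun l hl hlN hlS => hGe l hl hlN (by exact_mod_cast hlS)) h1 hq1 hq2 F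
    (fun l hl hlN hlS => hF l hl hlN (by exact_mod_cast hlS))
  obtain ⟨u, hu, w₃, hw₃, huw⟩ := Submodule.mem_sup.mp hmem
  obtain ⟨w₁, hw₁, w₂, hw₂, hww⟩ := Submodule.mem_sup.mp hu
  obtain ⟨h₁, hh₁, rfl⟩ := Submodule.mem_map.mp hw₁
  obtain ⟨h₂, hh₂, rfl⟩ := Submodule.mem_map.mp hw₂
  obtain ⟨h₃, hh₃, rfl⟩ := Submodule.mem_map.mp hw₃
  refine ⟨h₁, h₂, h₃, fun l hl hlN hlS => hh₁ l hl hlN (by exact_mod_cast hlS),
    fun l hl hlN hlS => hh₂ l hl hlN (by exact_mod_cast hlS),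
    fun l hl hlN hlS => hh₃ l hl hlN (by exact_mod_cast hlS), ?_⟩
  intro τ
  have hτ : F τ = (raiseLin h1 h₁ + raiseLin hq1 h₂ + raiseLin hq2 h₃) τ := by
    rw [hww, huw]
  rw [hτ]
  change raiseLin h1 h₁ τ + raiseLin hq1 h₂ τ + raiseLin hq2 h₃ τ = _
  rw [raiseLin_apply, raiseLin_apply, raiseLin_apply, heckeDiag_one_smul743,
    heckeDiag_mul_smul743 hq0 hq0]

end Fermat.Agent.S59.H743
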