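import Fermat.Agent.S31.H622.SelfAdjoint
import Fermat.Agent.Lib.Newform.H863.GoodEigen

/-!
# S59 / NM-OLD (helper743) — joint eigenvectors of the good Hecke operators span `S₂(Γ₀(L))`

The Petersson product of `S31/H622` makes `S₂(Γ₀(L))` a finite dimensional inner product space on
which the `T_ℓ`, `ℓ ∤ L`, are commuting symmetric operators; Mathlib's simultaneous
diagonalisation gives `jointEigen_induction743`: a submodule containing every common eigenvector
of all `T_ℓ` (`ℓ ∤ L`) is everything.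
-/

set_option autoImplicit false

open CongruenceSubgroup UpperHalfPlane MeasureTheory
open scoped MatrixGroups ModularForm ComplexConjugate

namespace Fermat.Agent.S59.H743

open Fermat.Agent.S31.H622

section Pet

variable (N : ℕ) [NeZero N]

omit [NeZero N] in
theorem petC_conj_symm743 (f g : CuspForm (Gamma0 N) 2) : conj (petC N g f) = petC N f g := by
  unfold petC
  rw [← integral_conj]
  refine integral_congr_ae (Filter.Eventually.of_forall fun τ => ?_)
  show (starRingEnd ℂ) (petersson 2 (⇑g) (⇑f) τ * ↑(chiH N τ)) = petersson 2 (⇑f) (⇑g) τ * ↑(chiH N τ)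
  rw [map_mul, Complex.conj_ofReal, ← petersson_symm]

omit [NeZero N] in
theorem petC_self_eq743 (f : CuspForm (Gamma0 N) 2) :
    petC N f f = ((∫ τ : ℍ, ‖f τ‖ ^ 2 * τ.im ^ 2 * chiH N τ : ℝ) : ℂ) := by
  have hpt : ∀ τ : ℍ, petersson 2 f f τ * (chiH N τ : ℂ)
      = ((‖f τ‖ ^ 2 * τ.im ^ 2 * chiH N τ : ℝ) : ℂ) := by
    intro τ
    simp only [petersson]
    push_cast
    rw [← Complex.conj_mul', zpow_ofNat]
  unfold petC
  rw [integral_congr_ae (Filter.Eventually.of_forall hpt)]
  exact integral_ofReal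

theorem re_petC_self_nonneg743 (f : CuspForm (Gamma0 N) 2) : 0 ≤ (petC N f f).re := by
  rw [petC_self_eq743, Complex.ofReal_re]
  exact integral_nonneg fun τ =>
    mul_nonneg (mul_nonneg (sq_nonneg _) (sq_nonneg _)) (chiH_nonneg N τ)

/-- The Petersson product as an `InnerProductSpace.Core`. -/
@[reducible] noncomputable def petCore743 : InnerProductSpace.Core ℂ (CuspForm (Gamma0 N) 2) where
  inner f g := petC N f g
  conj_inner_symm f g := petC_conj_symm743 N f g
  re_inner_nonneg f := re_petC_self_nonneg743 N f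
  add_left f g h := petC_add_left N f g h
  smul_left f g c := petC_smul_left N c f g
  definite f h := eq_zero_of_petC_self_eq_zero N f h

end Pet

/-- **Joint eigenvectors span.**  A submodule of `S₂(Γ₀(L))` containing all common eigenvectors
of the `T_ℓ`, `ℓ ∤ L`, is the whole space. -/
theorem jointEigen_induction743 (L : ℕ) [NeZero L] (W : Submodule ℂ (CuspForm (Gamma0 L) 2))
    (hW : ∀ (χ : ℕ → ℂ) (f : CuspForm (Gamma0 L) 2),
      (∀ (ℓ : ℕ) (hℓ : ℓ.Prime) (hℓL : ¬ ℓ ∣ L), CuspForm.heckeTLin 2 hℓ hℓL f = χ ℓ • f) →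
      f ∈ W) : W = ⊤ := by
  classical
  letI : NormedAddCommGroup (CuspForm (Gamma0 L) 2) :=
    @InnerProductSpace.Core.toNormedAddCommGroup ℂ (CuspForm (Gamma0 L) 2) _ _ _ (petCore743 L)
  letI : InnerProductSpace ℂ (CuspForm (Gamma0 L) 2) := InnerProductSpace.ofCore _
  haveI : FiniteDimensional ℂ (CuspForm (Gamma0 L) 2) :=
    Fermat.Agent.Lib.Newform.H863.finiteDimensional_cuspForm L
  let ι : Type := {ℓ : ℕ // ℓ.Prime ∧ ¬ ℓ ∣ L}
  let T : ι → (CuspForm (Gamma0 L) 2 →ₗ[ℂ] CuspForm (Gamma0 L) 2) :=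
    fun i => CuspForm.heckeTLin 2 i.2.1 i.2.2
  have hT : ∀ i, (T i).IsSymmetric := by
    intro i f g
    exact isPetSymm_heckeTLin L i.2.1 i.2.2 f g
  have hC : Pairwise (Function.onFun Commute T) := by
    intro i j _
    exact CuspForm.heckeTLin_comm 2 i.2.1 i.2.2 j.2.1 j.2.2
  have htop := LinearMap.IsSymmetric.iSup_iInf_eq_top_of_commute hT hC
  rw [eq_top_iff, ← htop]
  refine iSup_le fun χ => ?_
  intro f hf
  rw [Submodule.mem_iInf] at hf
  refine hW (fun ℓ => if h : ℓ.Prime ∧ ¬ ℓ ∣ L then χ ⟨ℓ, h⟩ else 0) f ?_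
  intro ℓ hℓ hℓL
  have h1 := hf ⟨ℓ, hℓ, hℓL⟩
  rw [Module.End.mem_eigenspace_iff] at h1
  rw [dif_pos ⟨hℓ, hℓL⟩]
  exact h1

end Fermat.Agent.S59.H743
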