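import Fermat.Agent.S59.H743.FormOld
import Fermat.Agent.S59.H563.OldSpec

/-!
# S59 / NM-OLD, leaf FORMS (helper743): `H563.OldFormsStatement`, verbatim

`oldForms743 : Fermat.Agent.S59.H563.OldFormsStatement` — Atkin–Lehner–Li on forms, from
`formOld743` (`FormOld.lean`).  The hypotheses `q ∤ N`, `q ∉ S` are not used.
-/

set_option autoImplicit false

namespace Fermat.Agent.S59.H743

/-- **OLD-FORMS** (sub-interface of helper563), unconditional. -/
theorem oldForms743 : Fermat.Agent.S59.H563.OldFormsStatement := by
  intro N q _ _ _ hq _ S _ hNS a hG F hF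
  exact formOld743 N q hq S hNS a hG F hF

end Fermat.Agent.S59.H743
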